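import Fermat.Agent.ExtVanish.InertiaLift
import Fermat.Agent.TW.ValueGroup
import Mathlib.NumberTheory.RamificationInertia.Galois
import Mathlib.NumberTheory.NumberField.ExistsRamified

/-!
# Values of elements fixed by an inertia group

If `z ∈ ℚ̄ˣ` is fixed by the inertia group of a place over `q`, its value is a power of the value
of `q`.
-/

set_option autoImplicit false

open scoped NumberField Pointwise

namespace FermatAgent.Mazur.Descent

open FermatAgent.RT FermatAgent.Local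

noncomputable section

local notation "Qb" => AlgebraicClosure ℚ
local notation "GQ" => AlgebraicClosure ℚ ≃ₐ[ℚ] AlgebraicClosure ℚ

attribute [local instance] isGalois_algClosureRat

section numberField

variable {L : Type*} [Field L] [NumberField L] [IsGalois ℚ L]

/-- The prime below `Q` in the inertia field of `Q` is unramified over `q`. -/
theorem exists_not_mem_mul_le (Q : Ideal (𝓞 L)) [Q.IsMaximal] {q : ℕ} (hq : q.Prime)
    (hqQ : (q : 𝓞 L) ∈ Q) :
    ∀ M : IntermediateField ℚ L, M = IntermediateField.fixedField (Q.inertia (L ≃ₐ[ℚ] L)) →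
      ∃ c : 𝓞 M, c ∉ Q.under (𝓞 M) ∧ ∀ a ∈ Q.under (𝓞 M), ∃ m : 𝓞 M, c * a = q * m := by
  intro M hM
  have hqZ : Prime (q : ℤ) := Nat.prime_iff_prime_int.mp hq
  have hspan : (Ideal.span {(q : ℤ)}).IsMaximal :=
    PrincipalIdealRing.isMaximal_of_irreducible hqZ.irreducible
  have : (Ideal.span {(q : ℤ)}).IsPrime := hspan.isPrime
  have : Q.LiesOver (Ideal.span {(q : ℤ)}) := ⟨hspan.eq_of_le
    (Ideal.IsPrime.ne_top inferInstance)
    (by rw [Ideal.span_singleton_le_iff_mem]; simpa using hqQ)⟩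
  have : Finite (ℤ ⧸ Ideal.span {(q : ℤ)}) :=
    have : NeZero q := ⟨hq.ne_zero⟩
    Finite.of_equiv _ (Int.quotientSpanNatEquivZMod q).symm.toEquiv
  have : Finite ((Ideal.span {(q : ℤ)}).ResidueField) :=
    Finite.of_surjective _ (Ideal.bijective_algebraMap_quotient_residueField _).2
  set QM := Q.under (𝓞 M) with hQM
  have : Q.LiesOver QM := ⟨rfl⟩
  have : QM.IsMaximal := Ideal.IsMaximal.under (𝓞 M) Q
  have : QM.LiesOver (Ideal.span {(q : ℤ)}) := Ideal.LiesOver.tower_bot Q QM _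
  have hQ0 : Q ≠ ⊥ := fun h => by
    rw [h, Ideal.mem_bot] at hqQ
    exact hq.ne_zero (by exact_mod_cast hqQ)
  have hQM0 : QM ≠ ⊥ := fun h => hQ0 (Ideal.eq_bot_of_comap_eq_bot h)
  have : Finite (𝓞 M ⧸ QM) := Ideal.finiteQuotientOfFreeOfNeBot QM hQM0
  have : Finite QM.ResidueField :=
    Finite.of_surjective _ (Ideal.bijective_algebraMap_quotient_residueField _).2
  -- both inertia groups have the same order
  have hcard : Nat.card (Q.inertia (L ≃ₐ[M] L)) = Nat.card (Q.inertia (L ≃ₐ[ℚ] L)) := by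
    have hfix : M.fixingSubgroup = Q.inertia (L ≃ₐ[ℚ] L) := by
      rw [hM, IntermediateField.fixingSubgroup_fixedField]
    refine Nat.card_congr ?_
    refine Equiv.ofBijective (fun g => (⟨(g : L ≃ₐ[M] L).restrictScalars ℚ, fun x => g.2 x⟩))
      ⟨fun g g' h => Subtype.ext (AlgEquiv.ext fun x =>
        DFunLike.congr_fun (congrArg Subtype.val h) x), fun σ => ?_⟩
    have hσ : (σ : L ≃ₐ[ℚ] L) ∈ M.fixingSubgroup := hfix.symm ▸ σ.2
    exact ⟨⟨M.fixingSubgroupEquiv ⟨σ, hσ⟩, fun x => σ.2 x⟩, Subtype.ext (AlgEquiv.ext fun x => rfl)⟩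
  rw [Ideal.card_inertia_eq_ramificationIdxIn QM Q,
    Ideal.card_inertia_eq_ramificationIdxIn (Ideal.span {(q : ℤ)}) Q,
    Ideal.ramificationIdxIn_eq_ramificationIdx QM Q (L ≃ₐ[M] L),
    Ideal.ramificationIdxIn_eq_ramificationIdx (Ideal.span {(q : ℤ)}) Q (L ≃ₐ[ℚ] L)] at hcard
  have htow := Ideal.ramificationIdx_tower (R := ℤ) QM Q
  rw [← hcard] at htow
  have he : QM.ramificationIdx ℤ = 1 := by
    have hpos := (Ideal.ramificationIdx_pos Q (𝓞 M)).ne'
    exact (right_eq_mul₀ hpos).1 htow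
  have hne : (Ideal.span {(q : ℤ)}).map (algebraMap ℤ (𝓞 M)) ≠ ⊥ := by
    rw [Ideal.map_span, Set.image_singleton, Ne, Ideal.span_singleton_eq_bot, map_natCast]
    exact_mod_cast hq.ne_zero
  rw [Ideal.IsDedekindDomain.ramificationIdx_eq_multiplicity (Ideal.span {(q : ℤ)}) QM hne] at he
  obtain ⟨C, hC⟩ := Ideal.dvd_iff_le.2 (Ideal.map_le_of_le_comap
    (le_of_eq (Ideal.LiesOver.over (P := QM) (p := Ideal.span {(q : ℤ)}))))
  have hCQ : ¬ C ≤ QM := fun h => by
    obtain ⟨D, rfl⟩ := Ideal.dvd_iff_le.2 h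
    have hfin : FiniteMultiplicity QM ((Ideal.span {(q : ℤ)}).map (algebraMap ℤ (𝓞 M))) :=
      FiniteMultiplicity.of_not_isUnit (fun hu => Ideal.IsPrime.ne_top inferInstance
        (Ideal.isUnit_iff.1 hu)) hne
    have hd : QM ^ 2 ∣ (Ideal.span {(q : ℤ)}).map (algebraMap ℤ (𝓞 M)) :=
      ⟨D, by rw [hC]; ring⟩
    have := hfin.le_multiplicity_of_pow_dvd hd
    omega
  obtain ⟨c, hc, hcQ⟩ := SetLike.not_le_iff_exists.1 hCQ
  refine ⟨c, hcQ, fun a ha => ?_⟩
  have hmem : a * c ∈ (Ideal.span {(q : ℤ)}).map (algebraMap ℤ (𝓞 M)) :=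
    hC ▸ Ideal.mul_mem_mul ha hc
  rw [Ideal.map_span, Set.image_singleton, map_natCast, Ideal.mem_span_singleton'] at hmem
  obtain ⟨m, hm⟩ := hmem
  exact ⟨m, by rw [mul_comm, ← hm, mul_comm]⟩

end numberField

variable {A : ValuationSubring Qb} {q : ℕ}

/-- An element fixed by inertia has the value of a power of `q`. -/
theorem exists_val_eq_zpow_of_inertia_fixed (hq : q.Prime) (hA : A.LiesOverPrime q) {z : Qb}
    (hz : z ≠ 0) (hfix : ∀ σ ∈ A.inertiaSubgroupIn ℚ, σ z = z) :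
    ∃ n : ℤ, A.valuation z = A.valuation (q : Qb) ^ n := by
  classical
  have hint : IsIntegral ℚ z := isGalois_algClosureRat.to_normal.isIntegral z
  have : FiniteDimensional ℚ (IntermediateField.adjoin ℚ {z}) :=
    IntermediateField.adjoin.finiteDimensional hint
  set L := IntermediateField.normalClosure ℚ (IntermediateField.adjoin ℚ {z}) Qb
  have hzL : z ∈ L :=
    IntermediateField.le_normalClosure _ (IntermediateField.mem_adjoin_simple_self ℚ z)
  have : NumberField L := { to_charZero := inferInstance, to_finiteDimensional := inferInstance }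
  have : Normal ℚ L := normalClosure.normal ℚ _ Qb
  have : IsGalois ℚ L := IsGalois.mk
  -- the prime cut out by `A`
  let j : 𝓞 L →+* integralClosure ℤ Qb :=
    ((algebraMap L Qb).comp (algebraMap (𝓞 L) L)).codRestrict (integralClosure ℤ Qb).toSubring
      fun x => (NumberField.RingOfIntegers.isIntegral_coe x).map (algebraMap L Qb).toIntAlgHom
  let Q : Ideal (𝓞 L) := (centre A).comap j
  have hQiff : ∀ x : 𝓞 L, x ∈ Q ↔ A.valuation ((x : L) : Qb) < 1 := fun x => by
    rw [Ideal.mem_comap, mem_centre_iff]; rfl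
  have hqQ : (q : 𝓞 L) ∈ Q := (hQiff _).2 (by
    have := val_natCast_lt_one hA
    simpa using this)
  have : (centre A).IsPrime := centre_isPrime A
  have : Q.IsPrime := Ideal.comap_isPrime j _
  have hQ0 : Q ≠ ⊥ := fun h => by
    rw [h, Ideal.mem_bot] at hqQ
    exact hq.ne_zero (by exact_mod_cast hqQ)
  have : Q.IsMaximal := Ideal.IsPrime.isMaximal inferInstance hQ0
  set M := IntermediateField.fixedField (Q.inertia (L ≃ₐ[ℚ] L)) with hM
  have hzM : (⟨z, hzL⟩ : L) ∈ M := by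
    intro σ
    obtain ⟨τ, hτ, hτx⟩ := ExtVanish.exists_inertia_lift_at L.val hq hA Q
      (fun x => by rw [hQiff, ValuationSubring.mem_nonunits_iff]; rfl) _ σ.2
    refine Subtype.ext ?_
    show L.val ((σ : L ≃ₐ[ℚ] L) ⟨z, hzL⟩) = z
    exact (hτx ⟨z, hzL⟩).symm.trans (hfix τ hτ)
  obtain ⟨c, hc, hca⟩ := exists_not_mem_mul_le Q hq hqQ M hM
  let v : 𝓞 M → A.ValueGroup := fun a => A.valuation (((a : M) : L) : Qb)
  have hle : ∀ a : 𝓞 M, v a ≤ 1 := fun a => (A.valuation_le_one_iff _).2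
    (mem_of_isIntegral_int A (((NumberField.RingOfIntegers.isIntegral_coe a).map
      (algebraMap M L).toIntAlgHom).map (algebraMap L Qb).toIntAlgHom))
  have hunder : ∀ a : 𝓞 M, a ∈ Q.under (𝓞 M) ↔ v a < 1 := fun a => hQiff _
  have hvc : v c = 1 := le_antisymm (hle c) (not_lt.1 fun h => hc ((hunder c).2 h))
  have hlq : A.valuation (q : Qb) < 1 := val_natCast_lt_one hA
  have hq0 : A.valuation (q : Qb) ≠ 0 := TW.natCast_val_ne_zero A hq
  have hstep : ∀ a : 𝓞 M, v a < 1 → ∃ m : 𝓞 M, v a = A.valuation (q : Qb) * v m := by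
    intro a ha
    obtain ⟨m, hm⟩ := hca a ((hunder a).2 ha)
    refine ⟨m, ?_⟩
    have h' := congrArg (fun t : 𝓞 M => (((t : M) : L) : Qb)) hm
    have h'' : A.valuation ((((c : M) : L) : Qb) * (((a : M) : L) : Qb)) =
        A.valuation ((q : Qb) * (((m : M) : L) : Qb)) := by
      congr 1
    rw [map_mul, map_mul] at h''
    rw [← one_mul (v a), ← hvc]
    exact h''
  have hall : ∀ (N : ℕ) (a : 𝓞 M), A.valuation (q : Qb) ^ N ≤ v a →
      ∃ n : ℤ, v a = A.valuation (q : Qb) ^ n := by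
    intro N
    induction N with
    | zero =>
      intro a ha
      exact ⟨0, by rw [zpow_zero]; exact le_antisymm (hle a) (by simpa using ha)⟩
    | succ N ih =>
      intro a ha
      rcases lt_or_eq_of_le (hle a) with hlt | heq
      · obtain ⟨m, hm⟩ := hstep a hlt
        rw [hm, pow_succ'] at ha
        obtain ⟨n, hn⟩ := ih m (le_of_mul_le_mul_left ha (zero_lt_iff.2 hq0))
        exact ⟨n + 1, by rw [hm, hn, zpow_add_one₀ hq0, mul_comm]⟩
      · exact ⟨0, by rw [zpow_zero]; exact heq⟩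
  have hbound : ∀ a : 𝓞 M, a ≠ 0 → ∃ n : ℤ, v a = A.valuation (q : Qb) ^ n := by
    intro a ha
    have ha0 : (((a : M) : L) : Qb) ≠ 0 := by simpa using ha
    obtain ⟨k, hk⟩ := TW.exists_val_pow_eq hq hA L (((a : M) : L)).2 ha0
    set d := (Module.finrank ℚ L).factorial with hd
    refine hall k.natAbs a ?_
    rcases eq_or_lt_of_le (hle a) with h1 | h1
    · rw [h1]; exact pow_le_one₀ zero_le hlq.le
    · calc A.valuation (q : Qb) ^ k.natAbs
          ≤ A.valuation (q : Qb) ^ k := by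
            rw [← zpow_natCast]
            exact zpow_le_zpow_right_of_le_one₀ (zero_lt_iff.2 hq0) hlq.le k.le_natAbs
        _ = v a ^ d := hk.symm
        _ ≤ v a := pow_le_of_le_one zero_le h1.le (Nat.factorial_ne_zero _)
  obtain ⟨a, b, hb, hab⟩ := IsFractionRing.div_surjective (A := 𝓞 M) (⟨⟨z, hzL⟩, hzM⟩ : M)
  have hb0 : b ≠ 0 := nonZeroDivisors.ne_zero hb
  have hab' : (((a : M) : L) : Qb) / (((b : M) : L) : Qb) = z :=
    congrArg (fun t : M => ((t : L) : Qb)) hab
  have ha0 : a ≠ 0 := by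
    rintro rfl
    simp at hab'
    exact hz hab'.symm
  obtain ⟨n, hn⟩ := hbound a ha0
  obtain ⟨n', hn'⟩ := hbound b hb0
  exact ⟨n - n', by rw [← hab', map_div₀, zpow_sub₀ hq0, ← hn, ← hn']⟩

end

end FermatAgent.Mazur.Descent
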