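import Fermat.Agent.Mazur.Descent.Counting
import Fermat.Agent.LocalP.Places
import Mathlib.Analysis.SpecialFunctions.Complex.Circle
import Mathlib.RingTheory.RootsOfUnity.AlgebraicallyClosed
import Mathlib.RingTheory.RootsOfUnity.Complex
import Mathlib.NumberTheory.Cyclotomic.PrimitiveRoots

/-!
# The frame attached to `Gal(ℚ̄/ℚ)` and two places
-/

set_option autoImplicit false

namespace FermatAgent.Mazur.Descent

noncomputable section

local notation "Qb" => AlgebraicClosure ℚ
local notation "GQ" => AlgebraicClosure ℚ ≃ₐ[ℚ] AlgebraicClosure ℚ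

/-- `ℚ/ℤ → ℝ/ℤ`. -/
def circleMap : AddCircle (1 : ℚ) →+ AddCircle (1 : ℝ) :=
  QuotientAddGroup.map _ _ (Rat.castHom ℝ).toAddMonoidHom (by
    intro x hx
    obtain ⟨k, rfl⟩ := AddSubgroup.mem_zmultiples_iff.1 hx
    exact AddSubgroup.mem_zmultiples_iff.2 ⟨k, by simp⟩)

theorem circleMap_injective : Function.Injective circleMap := by
  rw [injective_iff_map_eq_zero]
  intro x hx
  induction x using QuotientAddGroup.induction_on with
  | _ r =>
    have h : ((r : ℝ) : AddCircle (1 : ℝ)) = 0 := hx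
    obtain ⟨k, hk⟩ := (AddCircle.coe_eq_zero_iff 1).1 h
    refine (AddCircle.coe_eq_zero_iff 1).2 ⟨k, ?_⟩
    simp only [zsmul_eq_mul, mul_one] at hk ⊢
    exact_mod_cast hk

/-- `ℚ/ℤ → ℂ`, `x ↦ exp (2πix)`. -/
def circleExp (x : AddCircle (1 : ℚ)) : ℂ := (AddCircle.toCircle (circleMap x) : ℂ)

theorem circleExp_add (x y : AddCircle (1 : ℚ)) : circleExp (x + y) = circleExp x * circleExp y := by
  simp [circleExp, AddCircle.toCircle_add]

theorem circleExp_zero : circleExp 0 = 1 := by simp [circleExp, AddCircle.toCircle_zero]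

theorem circleExp_ne_zero (x : AddCircle (1 : ℚ)) : circleExp x ≠ 0 := Circle.coe_ne_zero _

theorem circleExp_injective : Function.Injective circleExp := fun _ _ h =>
  circleMap_injective (AddCircle.injective_toCircle one_ne_zero (Subtype.val_injective h))

theorem circleExp_nsmul (n : ℕ) (x : AddCircle (1 : ℚ)) :
    circleExp (n • x) = circleExp x ^ n := by
  induction n with
  | zero => simp [circleExp_zero]
  | succ n ih => rw [succ_nsmul, circleExp_add, ih, pow_succ]

/-- A fixed embedding `ℚ̄ → ℂ`. -/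
def embC : Qb →ₐ[ℚ] ℂ :=
  haveI : Algebra.IsAlgebraic ℚ Qb := FermatAgent.RT.isGalois_algClosureRat.to_normal.toIsAlgebraic
  IsAlgClosed.lift

/-- The mod `l` cyclotomic character. -/
def cycloChar (l : ℕ) [Fact l.Prime] : GQ →* (ZMod l)ˣ :=
  (HasEnoughRootsOfUnity.exists_primitiveRoot Qb l).choose_spec.autToPow ℚ

theorem cycloChar_spec {l : ℕ} [Fact l.Prime] {ζ : Qb} (hζ : IsPrimitiveRoot ζ l) (σ : GQ) :
    σ ζ = ζ ^ (cycloChar l σ : ZMod l).val := by
  have h0 := (HasEnoughRootsOfUnity.exists_primitiveRoot Qb l).choose_spec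
  obtain ⟨j, -, rfl⟩ := h0.eq_pow_of_pow_eq_one hζ.pow_eq_one
  rw [map_pow, ← h0.autToPow_spec ℚ σ, ← pow_mul, ← pow_mul, mul_comm]
  rfl

/-- The frame of the descent: inertia at the two places, inertia at all other primes, the open
subgroups, and characters given by units. -/
def galFrame (Ap A : ValuationSubring Qb) (p l : ℕ) : Frame GQ where
  Ip := Ap.inertiaSubgroupIn ℚ
  Il := A.inertiaSubgroupIn ℚ
  others := {σ | ∃ q : ℕ, q.Prime ∧ q ≠ p ∧ q ≠ l ∧ ∃ B : ValuationSubring Qb,
    B.LiesOverPrime q ∧ σ ∈ B.inertiaSubgroupIn ℚ}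
  levels := {U | ∃ L : IntermediateField ℚ Qb, FiniteDimensional ℚ L ∧ L.fixingSubgroup = U}
  levels_nonempty := ⟨_, ⊥, inferInstance, rfl⟩
  levels_inf := by
    rintro _ ⟨L, hL, rfl⟩ _ ⟨L', hL', rfl⟩
    exact ⟨L ⊔ L', inferInstance, IntermediateField.fixingSubgroup_sup⟩
  UT :=
    { carrier := {f | ∃ y : Qb, A.valuation y = 1 ∧
        ∀ σ : A.inertiaSubgroupIn ℚ, circleExp (f σ) = embC ((σ : GQ) y / y)}
      zero_mem' := ⟨1, map_one _, fun σ => by simp [circleExp_zero]⟩
      add_mem' := by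
        rintro f g ⟨y, hy, hf⟩ ⟨z, hz, hg⟩
        refine ⟨y * z, by rw [map_mul, hy, hz, one_mul], fun σ => ?_⟩
        rw [Pi.add_apply, circleExp_add, hf, hg, ← map_mul, map_mul (σ : GQ),
          div_mul_div_comm]
      neg_mem' := by
        rintro f ⟨y, hy, hf⟩
        refine ⟨y⁻¹, by rw [map_inv₀, hy, inv_one], fun σ => ?_⟩
        have h := circleExp_add (f σ) (-f σ)
        rw [add_neg_cancel, circleExp_zero] at h
        rw [Pi.neg_apply, eq_inv_of_mul_eq_one_right h.symm, hf, ← map_inv₀]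
        congr 1
        rw [map_inv₀ (σ : GQ), inv_div_inv, inv_div] }

end

end FermatAgent.Mazur.Descent
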