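import Fermat.Agent.Mazur.Descent.Unramified
import Fermat.Agent.Duality.Local.Discrete
import Mathlib.Data.Nat.Factorization.Basic

/-!
# Rationals all of whose values are multiples of `l`
-/

set_option autoImplicit false

namespace FermatAgent.Mazur.Descent

noncomputable section

local notation "Qb" => AlgebraicClosure ℚ

theorem exists_pow_eq_of_factorization {N l : ℕ} (hN : N ≠ 0)
    (h : ∀ q : ℕ, q.Prime → l ∣ N.factorization q) : ∃ r : ℕ, N = r ^ l := by
  refine ⟨N.factorization.prod fun q e => q ^ (e / l), ?_⟩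
  conv_lhs => rw [← Nat.prod_factorization_pow_eq_self hN]
  simp only [Finsupp.prod]
  rw [← Finset.prod_pow]
  refine Finset.prod_congr rfl fun q hq => ?_
  have hq' : q.Prime := Nat.prime_of_mem_primeFactors (Nat.support_factorization N ▸ hq)
  rw [← pow_mul, Nat.div_mul_cancel (h q hq')]

/-- A rational number whose values at all primes are `l`-th powers is `± b ^ l`. -/
theorem exists_eq_pow_or_neg_pow {l : ℕ} {a : ℚ} (ha : a ≠ 0)
    (h : ∀ q : ℕ, q.Prime → ∃ A : ValuationSubring Qb, A.LiesOverPrime q ∧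
      ∃ n : ℤ, A.valuation (a : Qb) = A.valuation (q : Qb) ^ ((l : ℤ) * n)) :
    ∃ b : ℚ, b ≠ 0 ∧ (a = b ^ l ∨ a = -b ^ l) := by
  have key : ∀ q : ℕ, q.Prime →
      l ∣ a.num.natAbs.factorization q ∧ l ∣ a.den.factorization q := by
    intro q hq
    obtain ⟨A, hA, n, hn⟩ := h q hq
    have hq0 : A.valuation (q : Qb) ≠ 0 := TW.natCast_val_ne_zero A hq
    have hval : ∀ N : ℕ, N ≠ 0 →
        A.valuation (N : Qb) = A.valuation (q : Qb) ^ ((N.factorization q : ℕ) : ℤ) := by
      intro N hN
      conv_lhs => rw [← Nat.ordProj_mul_ordCompl_eq_self N q]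
      rw [Nat.cast_mul, map_mul, Nat.cast_pow, map_pow, zpow_natCast,
        FermatAgent.Local.val_natCast_eq_one hq hA (Nat.not_dvd_ordCompl hq hN), mul_one]
    have hnum : A.valuation ((a.num : ℤ) : Qb) = A.valuation (a.num.natAbs : Qb) := by
      rcases Int.natAbs_eq a.num with hs | hs
      · conv_lhs => rw [hs, Int.cast_natCast]
      · conv_lhs => rw [hs, Int.cast_neg, Int.cast_natCast, Valuation.map_neg]
    rw [Rat.cast_def, map_div₀, hnum, hval _ (Int.natAbs_ne_zero.2 (Rat.num_ne_zero.2 ha)),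
      hval _ a.den_ne_zero, ← zpow_sub₀ hq0] at hn
    have he : ((a.num.natAbs.factorization q : ℕ) : ℤ) - (a.den.factorization q : ℕ) = l * n :=
      Duality.Local.zpow_val_l_injective hq hA hn
    rcases Decidable.em (q ∣ a.den) with hd | hd
    · have h0 : a.num.natAbs.factorization q = 0 := Nat.factorization_eq_zero_of_not_dvd fun hc =>
        hq.ne_one (Nat.eq_one_of_dvd_coprimes a.reduced hc hd)
      rw [h0] at he ⊢
      exact ⟨dvd_zero _, Int.natCast_dvd_natCast.1 ⟨-n, by push_cast at he; linear_combination -he⟩⟩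
    · have h0 : a.den.factorization q = 0 := Nat.factorization_eq_zero_of_not_dvd hd
      rw [h0] at he ⊢
      exact ⟨Int.natCast_dvd_natCast.1 ⟨n, by push_cast at he; linear_combination he⟩, dvd_zero _⟩
  obtain ⟨r, hr⟩ := exists_pow_eq_of_factorization (Int.natAbs_ne_zero.2 (Rat.num_ne_zero.2 ha))
    fun q hq => (key q hq).1
  obtain ⟨s, hs⟩ := exists_pow_eq_of_factorization a.den_ne_zero fun q hq => (key q hq).2
  rcases Int.natAbs_eq a.num with hn | hn
  · have he : a = ((r : ℚ) / s) ^ l := by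
      rw [div_pow, ← Nat.cast_pow, ← Nat.cast_pow, ← hr, ← hs]
      conv_lhs => rw [← Rat.num_div_den a, hn, Int.cast_natCast]
    rcases eq_or_ne ((r : ℚ) / s) 0 with h0 | h0
    · rcases Nat.eq_zero_or_pos l with rfl | hl
      · exact ⟨1, one_ne_zero, Or.inl (by simpa using he)⟩
      · exact absurd (by rw [he, h0, zero_pow hl.ne']) ha
    · exact ⟨_, h0, Or.inl he⟩
  · have he : a = -((r : ℚ) / s) ^ l := by
      rw [div_pow, ← Nat.cast_pow, ← Nat.cast_pow, ← hr, ← hs]
      conv_lhs => rw [← Rat.num_div_den a, hn, Int.cast_neg, Int.cast_natCast, neg_div]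
    rcases eq_or_ne ((r : ℚ) / s) 0 with h0 | h0
    · rcases Nat.eq_zero_or_pos l with rfl | hl
      · exact ⟨1, one_ne_zero, Or.inr (by simpa using he)⟩
      · exact absurd (by rw [he, h0, zero_pow hl.ne', neg_zero]) ha
    · exact ⟨_, h0, Or.inr he⟩

end

end FermatAgent.Mazur.Descent
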