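import Fermat.Agent.Mazur.Descent.GalFrame
import Fermat.Agent.Mazur.Descent.Rationals
import Fermat.Agent.Duality.Local.Units
import Fermat.Agent.LocalP.Minkowski

/-!
# The two simple modules

An everywhere unramified homomorphism is zero, and the strict `μ_l`-cocycles are Kummer cocycles
of `± b ^ l`, so there are at most `l` of them.
-/

set_option autoImplicit false

namespace FermatAgent.Mazur.Descent

open FermatAgent.Duality.Local

noncomputable section

local notation "Qb" => AlgebraicClosure ℚ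
local notation "GQ" => AlgebraicClosure ℚ ≃ₐ[ℚ] AlgebraicClosure ℚ

attribute [local instance] FermatAgent.RT.isGalois_algClosureRat

variable {Ap A : ValuationSubring Qb} {p l : ℕ}

theorem exists_level_of_mem {U : Subgroup GQ} (hU : U ∈ (galFrame Ap A p l).levels) :
    ∃ L : IntermediateField ℚ Qb, FiniteDimensional ℚ L ∧ L.fixingSubgroup = U := hU

/-- Inertia prime to `l` fixes the `l`-th roots of unity. -/
theorem inertia_fix_zeta [Fact l.Prime] {q : ℕ} (hq : q.Prime) (hql : q ≠ l)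
    {B : ValuationSubring Qb} (hB : B.LiesOverPrime q) {ζ : Qb} (hζ : IsPrimitiveRoot ζ l)
    {σ : GQ} (hσ : σ ∈ B.inertiaSubgroupIn ℚ) : σ ζ = ζ := by
  have h1 : B.valuation (σ ζ - ζ) < 1 :=
    FermatAgent.Local.inertia_val_sub_lt_one hσ (zeta_mem hζ)
  by_contra hne
  have hi : ((cycloChar l σ : ZMod l) - 1) ≠ 0 := fun h => hne (by
    rw [cycloChar_spec hζ, sub_eq_zero.1 h, ZMod.val_one, pow_one])
  have heq : σ ζ - ζ = ζ * (zpw l ζ ((cycloChar l σ : ZMod l) - 1) - 1) := by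
    have : zpw l ζ (cycloChar l σ : ZMod l) = ζ * zpw l ζ ((cycloChar l σ : ZMod l) - 1) := by
      conv_lhs => rw [← add_sub_cancel (1 : ZMod l) (cycloChar l σ : ZMod l), zpw_add hζ]
      congr 1
      rw [zpw, ZMod.val_one, pow_one]
    rw [mul_sub, mul_one, ← this, cycloChar_spec hζ]
    rfl
  rw [heq, map_mul, val_zeta hζ, one_mul, val_zpw_sub_one hζ hi,
    val_zeta_sub_one_eq_one hζ hq hB hql] at h1
  exact lt_irrefl _ h1

theorem cycloChar_eq_one_of_inertia [Fact l.Prime] {q : ℕ} (hq : q.Prime) (hql : q ≠ l)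
    {B : ValuationSubring Qb} (hB : B.LiesOverPrime q) {σ : GQ}
    (hσ : σ ∈ B.inertiaSubgroupIn ℚ) : cycloChar l σ = 1 := by
  obtain ⟨ζ, hζ⟩ := HasEnoughRootsOfUnity.exists_primitiveRoot Qb l
  have h := (cycloChar_spec hζ σ).symm.trans (inertia_fix_zeta hq hql hB hζ hσ)
  refine Units.ext ((zpw_injective (p := l) hζ) ?_)
  rw [Units.val_one]
  conv_rhs => rw [zpw, ZMod.val_one, pow_one]
  exact h

/-- A homomorphism trivial on inertia at `A`, `Ap` and all other primes is trivial. -/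
theorem eq_one_of_inertia (hA : A.LiesOverPrime l) (hAp : Ap.LiesOverPrime p)
    {M : Type} [CommGroup M] (χ : GQ →* M) (hlev : GaloisFactorsThroughFiniteLevel χ)
    (ho : ∀ σ ∈ (galFrame Ap A p l).others, χ σ = 1)
    (hp : ∀ σ ∈ Ap.inertiaSubgroupIn ℚ, χ σ = 1) (hl : ∀ σ ∈ A.inertiaSubgroupIn ℚ, χ σ = 1) :
    χ = 1 := by
  refine FermatAgent.LocalP.eq_one_of_unramified χ hlev fun q hq B hB σ hσ => ?_
  have hconj : ∀ g : GQ, χ (g⁻¹ * σ * g) = χ σ := fun g => by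
    rw [map_mul, map_mul, map_inv, mul_comm (χ g)⁻¹, inv_mul_cancel_right]
  by_cases hql : q = l
  · subst hql
    obtain ⟨g, hg⟩ := FermatAgent.LocalP.exists_conj_inertia hq hA hB
    rw [← hconj g]
    exact hl _ (hg σ hσ)
  by_cases hqp : q = p
  · subst hqp
    obtain ⟨g, hg⟩ := FermatAgent.LocalP.exists_conj_inertia hq hAp hB
    rw [← hconj g]
    exact hp _ (hg σ hσ)
  exact ho σ ⟨q, hq, hqp, hql, B, hB, hσ⟩

/-- The two simple modules satisfy the bounds. -/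
theorem pieces_galFrame [Fact l.Prime] (hp : p.Prime) (hpl : p ≠ l)
    (hA : A.LiesOverPrime l) (hAp : Ap.LiesOverPrime p) :
    Pieces (galFrame Ap A p l) (cycloChar l) := by
  classical
  have hl : l.Prime := Fact.out
  obtain ⟨ζ, hζ⟩ := HasEnoughRootsOfUnity.exists_primitiveRoot Qb l
  have hIp : ∀ σ ∈ Ap.inertiaSubgroupIn ℚ, cycloChar l σ = 1 := fun σ hσ =>
    cycloChar_eq_one_of_inertia hp hpl hAp hσ
  have hIl : (∀ σ ∈ A.inertiaSubgroupIn ℚ, cycloChar l σ = 1) → cycloChar l = 1 := by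
    intro h
    refine eq_one_of_inertia hA hAp _ ?_ ?_ hIp h
    · refine ⟨IntermediateField.adjoin ℚ {ζ}, IntermediateField.adjoin.finiteDimensional
        (FermatAgent.RT.isGalois_algClosureRat.to_normal.isIntegral ζ), fun σ hσ => ?_⟩
      have h1 := hσ ζ (IntermediateField.mem_adjoin_simple_self ℚ ζ)
      rw [cycloChar_spec hζ] at h1
      refine Units.ext ((zpw_injective (p := l) hζ) ?_)
      rw [Units.val_one]
      conv_rhs => rw [zpw, ZMod.val_one, pow_one]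
      exact h1
    · rintro σ ⟨q, hq, -, hql, B, hB, hσ⟩
      exact cycloChar_eq_one_of_inertia hq hql hB hσ
  have htriv : ∀ c : GQ → ZMod l, (∀ σ τ, c (σ * τ) = c σ + c τ) →
      (∃ U ∈ (galFrame Ap A p l).levels, ∀ σ ∈ U, c σ = 0) →
      (∀ σ ∈ (galFrame Ap A p l).others, c σ = 0) →
      (∀ σ ∈ Ap.inertiaSubgroupIn ℚ, c σ = 0) → (∀ σ ∈ A.inertiaSubgroupIn ℚ, c σ = 0) →
      c = 0 := by
    intro c hc hU ho hp' hl'
    obtain ⟨U, hU, hcU⟩ := hU
    obtain ⟨L, hL, rfl⟩ := exists_level_of_mem hU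
    let ψ : GQ →* Multiplicative (ZMod l) :=
      MonoidHom.mk' (fun σ => Multiplicative.ofAdd (c σ)) fun σ τ => by
        rw [hc, ofAdd_add]
    have h1 : ψ = 1 := eq_one_of_inertia hA hAp ψ
      ⟨L, hL, fun σ hσ => congrArg Multiplicative.ofAdd
        (hcU σ ((IntermediateField.mem_fixingSubgroup_iff L σ).2 hσ))⟩
      (fun σ hσ => congrArg Multiplicative.ofAdd (ho σ hσ))
      (fun σ hσ => congrArg Multiplicative.ofAdd (hp' σ hσ))
      (fun σ hσ => congrArg Multiplicative.ofAdd (hl' σ hσ))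
    funext σ
    exact congrArg Multiplicative.toAdd (DFunLike.congr_fun h1 σ)
  refine ⟨hIp, hIl, htriv, fun θ hθ => ?_⟩
  -- the standard character of `ℤ/l` and the root of unity it gives
  let x₀ : AddCircle (1 : ℚ) := ((((l : ℚ))⁻¹ : ℚ) : AddCircle (1 : ℚ))
  have hx₀ : (l : ℕ) • x₀ = 0 := by
    rw [← AddCircle.coe_nsmul, nsmul_eq_mul, mul_inv_cancel₀ (Nat.cast_ne_zero.2 hl.ne_zero)]
    exact (AddCircle.coe_eq_zero_iff 1).2 ⟨1, by simp⟩
  have hx₀ne : x₀ ≠ 0 := fun h => by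
    obtain ⟨k, hk⟩ := (AddCircle.coe_eq_zero_iff 1).1 h
    rw [zsmul_eq_mul, mul_one] at hk
    replace hk : (k : ℚ) * l = 1 := by rw [hk, inv_mul_cancel₀ (Nat.cast_ne_zero.2 hl.ne_zero)]
    have hk' : k * (l : ℤ) = 1 := by exact_mod_cast hk
    rcases Int.eq_one_or_neg_one_of_mul_eq_one' hk' with ⟨-, h2⟩ | ⟨-, h2⟩
    · exact hl.ne_one (by exact_mod_cast h2)
    · omega
  let φ₀ : ZMod l →+ AddCircle (1 : ℚ) := ZMod.lift l ⟨zmultiplesHom _ x₀, by
    simp only [zmultiplesHom_apply, natCast_zsmul]; exact hx₀⟩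
  have hφ : ∀ i : ZMod l, φ₀ i = i.val • x₀ := by
    intro i
    conv_lhs => rw [← ZMod.natCast_zmod_val i]
    rw [← Int.cast_natCast (R := ZMod l), ZMod.lift_coe]
    rw [zmultiplesHom_apply, natCast_zsmul]
  obtain ⟨ζ₀, hζ₀, he⟩ : ∃ ζ₀ : Qb, IsPrimitiveRoot ζ₀ l ∧
      ∀ i : ZMod l, circleExp (φ₀ i) = embC (zpw l ζ₀ i) := by
    have hpow : circleExp x₀ ^ l = 1 := by rw [← circleExp_nsmul, hx₀, circleExp_zero]
    obtain ⟨j, -, hj⟩ :=
      (hζ.map_of_injective embC.injective).eq_pow_of_pow_eq_one hpow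
    refine ⟨ζ ^ j, ?_, fun i => ?_⟩
    · refine IsPrimitiveRoot.iff_orderOf.2 (orderOf_eq_prime ?_ ?_)
      · rw [← pow_mul, mul_comm, pow_mul, hζ.pow_eq_one, one_pow]
      · intro h1
        refine hx₀ne (circleExp_injective ?_)
        rw [circleExp_zero, ← hj, ← map_pow, h1, map_one]
    · rw [hφ, circleExp_nsmul, zpw, map_pow, map_pow, ← hj]
      rfl
  have hUT : ∀ c : GQ → ZMod l, (∀ φ : ZMod l →+ AddCircle (1 : ℚ),
      (fun σ : (galFrame Ap A p l).Il => φ (c σ)) ∈ (galFrame Ap A p l).UT) →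
      ∃ y : Qb, A.valuation y = 1 ∧
        ∀ σ ∈ A.inertiaSubgroupIn ℚ, σ y / y = zpw l ζ₀ (c σ) := by
    intro c hc
    obtain ⟨y, hy, h⟩ := hc φ₀
    refine ⟨y, hy, fun σ hσ => embC.injective ?_⟩
    show embC (σ y / y) = embC (zpw l ζ₀ (c σ))
    rw [← he]
    exact (h ⟨σ, hσ⟩).symm
  have hzpw : ∀ (σ : GQ) (i : ZMod l),
      σ (zpw l ζ₀ i) = zpw l ζ₀ ((cycloChar l σ : ZMod l) * i) := by
    intro σ i
    rw [zpw, map_pow, cycloChar_spec hζ₀, ← pow_mul]
    conv_rhs => rw [← ZMod.natCast_zmod_val (cycloChar l σ : ZMod l),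
      ← ZMod.natCast_zmod_val i, ← Nat.cast_mul, zpw_natCast hζ₀]
  by_cases hcase : θ = cycloChar l
  swap
  · -- the trivial action with `χ ≠ 1`
    have hθ1 : θ = 1 := hθ.resolve_right hcase
    subst hθ1
    refine ⟨{0}, by simpa using hl.one_lt.le, fun c hc hU ho hp' hφc => ?_⟩
    rw [Finset.mem_singleton]
    have hc' : ∀ σ τ, c (σ * τ) = c σ + c τ := by simpa using hc
    refine htriv c hc' hU ho hp' fun τ hτ => ?_
    obtain ⟨σ₀, hσ₀, hχ⟩ : ∃ σ₀ ∈ A.inertiaSubgroupIn ℚ, cycloChar l σ₀ ≠ 1 := by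
      by_contra! h
      exact hcase (hIl h).symm
    obtain ⟨y, hy, hu⟩ := hUT c hφc
    have hy0 : y ≠ 0 := fun h => by simp [h] at hy
    have h1 := hu (σ₀ * τ) (mul_mem hσ₀ hτ)
    have h2 : (σ₀ * τ) y / y = (σ₀ y / y) * σ₀ (τ y / y) := by
      rw [map_div₀, AlgEquiv.mul_apply, div_mul_div_comm,
        mul_comm y (σ₀ y), mul_div_mul_left _ _ ((_root_.map_ne_zero _).2 hy0)]
    rw [h2, hu σ₀ hσ₀, hu τ hτ, hzpw, ← zpw_add hζ₀, hc'] at h1
    have h3 := zpw_injective hζ₀ h1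
    have h4 : ((cycloChar l σ₀ : ZMod l) - 1) * c τ = 0 := by linear_combination h3
    refine (mul_eq_zero.1 h4).resolve_left fun h => hχ (Units.ext ?_)
    rw [Units.val_one]
    exact sub_eq_zero.1 h
  subst hcase
  have : NeZero (2 * l) := ⟨mul_ne_zero two_ne_zero hl.ne_zero⟩
  obtain ⟨η, hη⟩ := HasEnoughRootsOfUnity.exists_primitiveRoot Qb (2 * l)
  have hη0 : η ≠ 0 := hη.ne_zero (NeZero.ne _)
  let cOf : ℕ → GQ → ZMod l := fun j σ =>
    if h : ∃ i : ZMod l, zpw l ζ₀ i = σ (η ^ j) / η ^ j then h.choose else 0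
  refine ⟨(Finset.range l).image cOf,
    (Finset.card_image_le).trans (Finset.card_range l).le, fun c hc hU ho hp' hφc => ?_⟩
  obtain ⟨U, hU, hcU⟩ := hU
  obtain ⟨L, hL, rfl⟩ := exists_level_of_mem hU
  obtain ⟨y, hy, hu⟩ := hUT c hφc
  have hy0 : y ≠ 0 := fun h => by simp [h] at hy
  -- Hilbert 90
  obtain ⟨t, ht0, ht⟩ := exists_eq_div_of_mulCocycle (D := (⊤ : Subgroup GQ))
    (fun g => zpw l ζ₀ (c g))
    (isLev₁_iff_exists_field.2 ⟨L, hL, fun g s hs => by
      rw [Subgroup.coe_mul, hc, hcU s hs, mul_zero, add_zero]⟩)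
    (fun g => zpw_ne_zero hζ₀ _)
    (fun g h => by rw [Subgroup.coe_mul, hc, zpw_add hζ₀, hzpw])
  have ht' : ∀ σ : GQ, σ t / t = zpw l ζ₀ (c σ) := fun σ =>
    (ht ⟨σ, Subgroup.mem_top σ⟩).symm
  have hfix : ∀ σ : GQ, c σ = 0 → σ t = t := fun σ h => by
    have := ht' σ
    rwa [h, zpw_zero, div_eq_one_iff_eq ht0] at this
  obtain ⟨a, ha⟩ : ∃ a : ℚ, (a : Qb) = t ^ l := by
    have hmem : t ^ l ∈ (⊥ : IntermediateField ℚ Qb) := by
      rw [InfiniteGalois.mem_bot_iff_fixed]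
      intro σ
      have h1 : (σ t / t) ^ l = 1 := by rw [ht', zpw_pow_eq_one hζ₀]
      rwa [div_pow, div_eq_one_iff_eq (pow_ne_zero _ ht0), ← map_pow] at h1
    obtain ⟨a, ha⟩ := IntermediateField.mem_bot.1 hmem
    exact ⟨a, (eq_ratCast (algebraMap ℚ Qb) a).symm.trans ha⟩
  have ha0 : a ≠ 0 := fun h => pow_ne_zero l ht0 (by rw [← ha, h, Rat.cast_zero])
  obtain ⟨b, hb0, hb⟩ := exists_eq_pow_or_neg_pow (l := l) ha0 (by
    intro q hq
    have key : ∀ B : ValuationSubring Qb, B.LiesOverPrime q →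
        (∃ n : ℤ, B.valuation t = B.valuation (q : Qb) ^ n) →
        ∃ B : ValuationSubring Qb, B.LiesOverPrime q ∧
          ∃ n : ℤ, B.valuation (a : Qb) = B.valuation (q : Qb) ^ ((l : ℤ) * n) := by
      rintro B hB ⟨n, hn⟩
      exact ⟨B, hB, n, by rw [ha, map_pow, hn, ← zpow_natCast, ← zpow_mul, mul_comm]⟩
    by_cases hql : q = l
    · subst hql
      refine key A hA ?_
      obtain ⟨n, hn⟩ := exists_val_eq_zpow_of_inertia_fixed hq hA (div_ne_zero ht0 hy0)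
        fun σ hσ => by
          have h1 := (ht' σ).trans (hu σ hσ).symm
          rw [div_eq_div_iff ht0 hy0] at h1
          rw [map_div₀, div_eq_div_iff ((_root_.map_ne_zero _).2 hy0) hy0, h1, mul_comm]
      exact ⟨n, by rwa [map_div₀, hy, div_one] at hn⟩
    by_cases hqp : q = p
    · subst hqp
      exact key Ap hAp (exists_val_eq_zpow_of_inertia_fixed hq hAp ht0 fun σ hσ =>
        hfix σ (hp' σ hσ))
    obtain ⟨B, hB⟩ := FermatAgent.RT.exists_liesOverPrime hq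
    exact key B hB (exists_val_eq_zpow_of_inertia_fixed hq hB ht0 fun σ hσ =>
      hfix σ (ho σ ⟨q, hq, hqp, hql, B, hB, hσ⟩)))
  have hb' : (b : Qb) ≠ 0 := by exact_mod_cast hb0
  have hs : (t / b) ^ (2 * l) = 1 := by
    have : (t / b) ^ l = 1 ∨ (t / b) ^ l = -1 := by
      rw [div_pow, ← ha]
      rcases hb with h | h
      · left; rw [h, Rat.cast_pow, div_self (pow_ne_zero _ hb')]
      · right; rw [h, Rat.cast_neg, Rat.cast_pow, neg_div, div_self (pow_ne_zero _ hb')]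
    rw [mul_comm, pow_mul]
    rcases this with h | h <;> rw [h] <;> norm_num
  obtain ⟨j, hj, hjs⟩ := hη.eq_pow_of_pow_eq_one hs
  have hηl : η ^ l = -1 := by
    have h2 : (η ^ l) ^ 2 = 1 := by rw [← pow_mul, mul_comm, hη.pow_eq_one]
    refine (sq_eq_one_iff.1 h2).resolve_left fun h => ?_
    have := Nat.le_of_dvd hl.pos ((hη.pow_eq_one_iff_dvd l).1 h)
    have := hl.pos
    omega
  have hσb : ∀ σ : GQ, σ (b : Qb) = b := fun σ => map_ratCast σ b
  have hratio : ∀ σ : GQ, σ (η ^ (j % l)) / η ^ (j % l) = σ t / t := by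
    intro σ
    have h1 : σ (η ^ j) / η ^ j = σ t / t := by
      rw [hjs, map_div₀, hσb, div_div_div_cancel_right₀ hb']
    rw [← h1]
    conv_rhs => rw [← Nat.mod_add_div j l, pow_add, pow_mul, hηl, map_mul,
      map_pow σ (-1 : Qb), map_neg, map_one, mul_div_mul_right _ _ (pow_ne_zero _
        (neg_ne_zero.2 one_ne_zero))]
  refine Finset.mem_image.2 ⟨j % l, Finset.mem_range.2 (Nat.mod_lt _ hl.pos), funext fun σ => ?_⟩
  have hex : ∃ i : ZMod l, zpw l ζ₀ i = σ (η ^ (j % l)) / η ^ (j % l) :=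
    ⟨c σ, by rw [hratio, ht']⟩
  rw [show cOf (j % l) σ = hex.choose from dif_pos hex]
  exact zpw_injective hζ₀ (hex.choose_spec.trans ((hratio σ).trans (ht' σ)))

end

end FermatAgent.Mazur.Descent
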