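import Fermat.Agent.Mazur.Descent.Devissage
import Mathlib.GroupTheory.PGroup
import Mathlib.GroupTheory.SpecificGroups.Cyclic
import Mathlib.Algebra.CharP.Lemmas

/-!
# The bound `#strictPairs ≤ #B * #B⁰`

For a finite module all of whose elements are killed by powers of `(σ - 1)(σ - χ σ)`, the
strict pairs are at most `#B * #B⁰` in number, as soon as this holds for the two simple modules.
-/

set_option autoImplicit false

namespace FermatAgent.Mazur.Descent

universe u

variable {Γ : Type*} [Group Γ] {l : ℕ} [Fact l.Prime]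

/-- The additive endomorphism given by a group element. -/
def actEnd (B : Type u) [AddCommGroup B] [DistribMulAction Γ B] (σ : Γ) : AddMonoid.End B :=
  DistribSMul.toAddMonoidHom B σ

/-- `(σ - 1)(σ - χ σ)`. -/
def eisOp (χ : Γ →* (ZMod l)ˣ) (B : Type u) [AddCommGroup B] [DistribMulAction Γ B] (σ : Γ) :
    AddMonoid.End B :=
  (actEnd B σ - 1) * (actEnd B σ - ((χ σ : ZMod l).val : AddMonoid.End B))

/-- All constituents of `B` are trivial or given by `χ`. -/
def IsEisLike (χ : Γ →* (ZMod l)ˣ) (B : Type u) [AddCommGroup B] [DistribMulAction Γ B] : Prop :=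
  (∀ b : B, ∃ k : ℕ, (l ^ k : ℕ) • b = 0) ∧ ∀ σ : Γ, ∀ b : B, ∃ n : ℕ, (eisOp χ B σ ^ n) b = 0

variable {B : Type u} [AddCommGroup B] [DistribMulAction Γ B]

theorem natCast_end_apply (m : ℕ) (b : B) : (m : AddMonoid.End B) b = m • b :=
  AddMonoid.End.natCast_apply m b

theorem eisOp_apply (χ : Γ →* (ZMod l)ˣ) (σ : Γ) (b : B) :
    eisOp χ B σ b = σ • (σ • b - (χ σ : ZMod l).val • b) - (σ • b - (χ σ : ZMod l).val • b) := by
  change σ • (σ • b - ((χ σ : ZMod l).val : AddMonoid.End B) b) -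
    (σ • b - ((χ σ : ZMod l).val : AddMonoid.End B) b) = _
  rw [natCast_end_apply]

theorem eisOp_comm {C : Type u} [AddCommGroup C] [DistribMulAction Γ C] (χ : Γ →* (ZMod l)ˣ)
    (f : B →+ C) (hf : ∀ (σ : Γ) (b : B), f (σ • b) = σ • f b) (σ : Γ) (n : ℕ) (b : B) :
    f ((eisOp χ B σ ^ n) b) = (eisOp χ C σ ^ n) (f b) := by
  induction n generalizing b with
  | zero => rfl
  | succ n ih =>
    rw [pow_succ, pow_succ]
    change f ((eisOp χ B σ ^ n) (eisOp χ B σ b)) = (eisOp χ C σ ^ n) (eisOp χ C σ (f b))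
    rw [ih]
    congr 1
    simp only [eisOp_apply, map_sub, map_nsmul, hf]

theorem IsEisLike.of_surjective {C : Type u} [AddCommGroup C] [DistribMulAction Γ C]
    {χ : Γ →* (ZMod l)ˣ} (h : IsEisLike χ B) (π : B →+ C) (hπ : Function.Surjective π)
    (hπe : ∀ (σ : Γ) (b : B), π (σ • b) = σ • π b) : IsEisLike χ C := by
  refine ⟨fun c => ?_, fun σ c => ?_⟩ <;> obtain ⟨b, rfl⟩ := hπ c
  · obtain ⟨k, hk⟩ := h.1 b
    exact ⟨k, by rw [← map_nsmul, hk, map_zero]⟩
  · obtain ⟨n, hn⟩ := h.2 σ b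
    exact ⟨n, by rw [← eisOp_comm χ π hπe, hn, map_zero]⟩

/-- A nonzero Eisenstein-like module has a line on which `Γ` acts by `1` or by `χ`. -/
theorem exists_line [Finite B] [Nontrivial B] (χ : Γ →* (ZMod l)ˣ) (h : IsEisLike χ B) :
    ∃ v : B, v ≠ 0 ∧ l • v = 0 ∧
      ((∀ σ : Γ, σ • v = v) ∨ ∀ σ : Γ, σ • v = ((χ σ : ZMod l).val) • v) := by
  classical
  have hl : l.Prime := Fact.out
  -- the `l`-torsion
  let B1 : AddSubgroup B := (DistribSMul.toAddMonoidHom B l).ker
  have hB1 : ∀ b : B, b ∈ B1 ↔ l • b = 0 := fun b => Iff.rfl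
  obtain ⟨b, hb⟩ := exists_ne (0 : B)
  have hne : ∃ w : B, w ≠ 0 ∧ l • w = 0 := by
    obtain ⟨k, hk, hmin⟩ : ∃ k, l ^ k • b = 0 ∧ ∀ j < k, l ^ j • b ≠ 0 :=
      ⟨Nat.find (h.1 b), Nat.find_spec (h.1 b), fun j hj => Nat.find_min (h.1 b) hj⟩
    rcases k with _ | k
    · exact absurd (by simpa using hk) hb
    · exact ⟨l ^ k • b, hmin k (Nat.lt_succ_self k), by rwa [← mul_nsmul, ← pow_succ]⟩
  -- elements of the kernel of `χ` act unipotently on the `l`-torsion
  let N := χ.ker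
  have hN : ∀ n ∈ N, ∃ k : ℕ, ∀ w : B, l • w = 0 → n ^ l ^ k • w = w := by
    intro n hn
    have hχn : (χ n : ZMod l).val = 1 := by
      rw [MonoidHom.mem_ker.1 hn, Units.val_one, ZMod.val_one]
    cases nonempty_fintype B
    choose e he using h.2 n
    let e₀ := Finset.univ.sup e
    have he₀ : ∀ w : B, ((actEnd B n - 1) ^ (2 * e₀)) w = 0 := by
      intro w
      have h1 : eisOp χ B n = (actEnd B n - 1) ^ 2 := by
        rw [eisOp, hχn, Nat.cast_one, sq]
      obtain ⟨d, hd⟩ := Nat.exists_eq_add_of_le'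
        (Finset.le_sup (Finset.mem_univ w) : e w ≤ e₀)
      rw [pow_mul, ← h1, show e₀ = d + e w from hd, pow_add]
      change (eisOp χ B n ^ d) ((eisOp χ B n ^ e w) w) = 0
      rw [he w, map_zero]
    obtain ⟨k, hk⟩ : ∃ k : ℕ, 2 * e₀ ≤ l ^ k := ⟨2 * e₀, (Nat.lt_pow_self hl.one_lt).le⟩
    refine ⟨k, fun w hw => ?_⟩
    have hz : ((actEnd B n - 1) ^ l ^ k) w = 0 := by
      rw [← Nat.sub_add_cancel hk, pow_add]
      change ((actEnd B n - 1) ^ (l ^ k - 2 * e₀)) (((actEnd B n - 1) ^ (2 * e₀)) w) = 0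
      rw [he₀ w, map_zero]
    obtain ⟨r, hr⟩ := (Commute.one_right (actEnd B n - 1)).exists_add_pow_prime_pow_eq
      hl k
    rw [sub_add_cancel, one_pow] at hr
    have hpow : ∀ j : ℕ, actEnd B n ^ j = actEnd B (n ^ j) := by
      intro j
      induction j with
      | zero =>
        ext x
        rw [pow_zero, pow_zero]
        exact (one_smul Γ x).symm
      | succ j ih =>
        rw [pow_succ, ih, pow_succ]
        ext x
        change n ^ j • n • x = (n ^ j * n) • x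
        rw [mul_smul]
    rw [hpow, mul_assoc, mul_assoc] at hr
    have h2 : actEnd B (n ^ l ^ k) w = ((actEnd B n - 1) ^ l ^ k) w + w +
        (l : AddMonoid.End B) (((actEnd B n - 1) * (1 * r)) w) := by
      rw [hr]
      rfl
    rw [hz, zero_add, natCast_end_apply, ← map_nsmul, hw, map_zero, add_zero] at h2
    exact h2
  -- the finite image of the kernel on the `l`-torsion is an `l`-group
  let W := {w : B // l • w = 0}
  let _instW : MulAction Γ W :=
    { smul := fun σ w => ⟨σ • w.1, by rw [smul_comm, w.2, smul_zero]⟩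
      one_smul := fun w => Subtype.ext (one_smul Γ w.1)
      mul_smul := fun σ τ w => Subtype.ext (mul_smul σ τ w.1) }
  let ρ : N →* Equiv.Perm W := (MulAction.toPermHom Γ W).comp N.subtype
  have hG : IsPGroup l ρ.range := by
    rintro ⟨_, n, rfl⟩
    obtain ⟨k, hk⟩ := hN n n.2
    refine ⟨k, Subtype.ext ?_⟩
    rw [SubgroupClass.coe_pow, ← map_pow]
    ext w
    change ((n : Γ) ^ l ^ k) • w.1 = w.1
    exact hk w.1 w.2
  have hW : l ∣ Nat.card W := by
    obtain ⟨w, hw0, hw⟩ := hne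
    have : addOrderOf (⟨w, (hB1 w).2 hw⟩ : B1) = l :=
      addOrderOf_eq_prime (Subtype.ext hw) fun hc => hw0 (congrArg Subtype.val hc)
    rw [← this]
    exact (addOrderOf_dvd_natCard _).trans (by rfl)
  have h0W : (⟨0, smul_zero _⟩ : W) ∈ MulAction.fixedPoints ρ.range W := by
    rintro ⟨_, n, rfl⟩
    exact Subtype.ext (smul_zero (n : Γ))
  obtain ⟨w, hwfix, hwne⟩ := hG.exists_fixed_point_of_prime_dvd_card_of_fixed_point W hW h0W
  have hwN : ∀ n ∈ N, n • w.1 = w.1 := fun n hn =>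
    congrArg Subtype.val (hwfix ⟨ρ ⟨n, hn⟩, ⟨n, hn⟩, rfl⟩)
  -- the fixed part
  obtain ⟨z, hz⟩ := IsCyclic.exists_generator (α := χ.range)
  obtain ⟨σ₀, hσ₀⟩ := z.2
  have hgen : ∀ σ : Γ, ∃ k : ℕ, χ σ = χ σ₀ ^ k := by
    intro σ
    obtain ⟨k, hk⟩ := (Submonoid.mem_powers_iff _ _).1
      (mem_powers_iff_mem_zpowers.2 (hz ⟨χ σ, σ, rfl⟩))
    exact ⟨k, by rw [hσ₀]; exact congrArg Subtype.val hk.symm⟩
  let P : B → Prop := fun v => l • v = 0 ∧ ∀ n ∈ N, n • v = v
  have hPσ : ∀ (σ : Γ) (v : B), P v → P (σ • v) := by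
    rintro σ v ⟨hv, hvN⟩
    refine ⟨by rw [smul_comm, hv, smul_zero], fun n hn => ?_⟩
    have := hvN (σ⁻¹ * n * σ)
      (by simp [N, MonoidHom.mem_ker, MonoidHom.mem_ker.1 hn])
    rw [← mul_smul, show n * σ = σ * (σ⁻¹ * n * σ) by group, mul_smul, this]
  have hPsub : ∀ v v' : B, P v → P v' → P (v - v') := fun v v' hv hv' =>
    ⟨by rw [smul_sub, hv.1, hv'.1, sub_zero],
      fun n hn => by rw [smul_sub, hv.2 n hn, hv'.2 n hn]⟩
  have hPn : ∀ (m : ℕ) (v : B), P v → P (m • v) := fun m v hv =>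
    ⟨by rw [smul_comm, hv.1, smul_zero], fun n hn => by rw [smul_comm, hv.2 n hn]⟩
  set s := (χ σ₀ : ZMod l).val
  have happ : ∀ v : B, eisOp χ B σ₀ v =
      σ₀ • (σ₀ • v - s • v) - (σ₀ • v - s • v) := by
    intro v
    exact eisOp_apply χ σ₀ v
  have hfound : ∃ v : B, v ≠ 0 ∧ P v ∧ (σ₀ • v = v ∨ σ₀ • v = s • v) := by
    have hex := h.2 σ₀ w.1
    have hw0 : w.1 ≠ 0 := fun hc => hwne (Subtype.ext hc.symm)
    obtain ⟨n, hn, hmin⟩ : ∃ n, (eisOp χ B σ₀ ^ n) w.1 = 0 ∧
        ∀ j < n, (eisOp χ B σ₀ ^ j) w.1 ≠ 0 :=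
      ⟨Nat.find hex, Nat.find_spec hex, fun j hj => Nat.find_min hex hj⟩
    have hP : ∀ j : ℕ, P ((eisOp χ B σ₀ ^ j) w.1) := by
      intro j
      induction j with
      | zero => exact ⟨w.2, hwN⟩
      | succ j ih =>
        rw [pow_succ']
        change P (eisOp χ B σ₀ ((eisOp χ B σ₀ ^ j) w.1))
        rw [happ]
        have h1 := hPsub _ _ (hPσ σ₀ _ ih) (hPn s _ ih)
        exact hPsub _ _ (hPσ σ₀ _ h1) h1
    rcases n with _ | n
    · exact absurd hn hw0
    set v₁ := (eisOp χ B σ₀ ^ n) w.1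
    have hv₁ : eisOp χ B σ₀ v₁ = 0 := by
      rw [pow_succ'] at hn
      exact hn
    rw [happ] at hv₁
    by_cases hu : σ₀ • v₁ - s • v₁ = 0
    · exact ⟨v₁, hmin n (Nat.lt_succ_self n), hP n, Or.inr (sub_eq_zero.1 hu)⟩
    · exact ⟨_, hu, hPsub _ _ (hPσ σ₀ _ (hP n)) (hPn s _ (hP n)), Or.inl (sub_eq_zero.1 hv₁)⟩
  obtain ⟨v, hv0, ⟨hvl, hvN⟩, hv⟩ := hfound
  refine ⟨v, hv0, hvl, ?_⟩
  have hmod : ∀ a b : ℕ, (a : ZMod l) = b → a • v = b • v := by
    intro a b hab
    rw [ZMod.natCast_eq_natCast_iff'] at hab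
    rw [← Nat.mod_add_div a l, ← Nat.mod_add_div b l, hab, add_nsmul, add_nsmul,
      mul_nsmul, mul_nsmul, hvl, smul_zero, smul_zero]
  have hdec : ∀ σ : Γ, ∃ k : ℕ, χ σ = χ σ₀ ^ k ∧ σ • v = σ₀ ^ k • v := by
    intro σ
    obtain ⟨k, hk⟩ := hgen σ
    refine ⟨k, hk, ?_⟩
    have hmem : (σ₀ ^ k)⁻¹ * σ ∈ N := by simp [N, MonoidHom.mem_ker, hk]
    have := hvN _ hmem
    rw [mul_smul, inv_smul_eq_iff] at this
    exact this
  rcases hv with hv | hv
  · refine Or.inl fun σ => ?_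
    obtain ⟨k, -, hkv⟩ := hdec σ
    rw [hkv]
    induction k generalizing σ with
    | zero => simp
    | succ k ih => rw [pow_succ, mul_smul, hv]; exact ih (σ₀ ^ k) rfl
  · refine Or.inr fun σ => ?_
    obtain ⟨k, hk, hkv⟩ := hdec σ
    rw [hkv]
    have hpw : ∀ j : ℕ, σ₀ ^ j • v = (s ^ j) • v := by
      intro j
      induction j with
      | zero => simp
      | succ j ih =>
        rw [pow_succ, mul_smul, hv, smul_comm, ih, ← mul_nsmul', ← pow_succ']
    rw [hpw]
    exact hmod _ _ (by simp [s, hk])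

/-- The bound for the two kinds of simple modules, stated for functions to `ZMod l`. -/
structure Pieces (F : Frame Γ) (χ : Γ →* (ZMod l)ˣ) : Prop where
  chi_Ip : ∀ σ ∈ F.Ip, χ σ = 1
  chi_Il : (∀ σ ∈ F.Il, χ σ = 1) → χ = 1
  trivial_piece : ∀ c : Γ → ZMod l, (∀ σ τ, c (σ * τ) = c σ + c τ) →
    (∃ U ∈ F.levels, ∀ σ ∈ U, c σ = 0) → (∀ σ ∈ F.others, c σ = 0) →
    (∀ σ ∈ F.Ip, c σ = 0) → (∀ σ ∈ F.Il, c σ = 0) → c = 0
  mult_piece : ∀ θ : Γ →* (ZMod l)ˣ, (θ = 1 ∨ θ = χ) →
    ∃ S : Finset (Γ → ZMod l), S.card ≤ l ∧ ∀ c : Γ → ZMod l,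
      (∀ σ τ, c (σ * τ) = c σ + (θ σ : ZMod l) * c τ) →
      (∃ U ∈ F.levels, ∀ σ ∈ U, c σ = 0) → (∀ σ ∈ F.others, c σ = 0) →
      (∀ σ ∈ F.Ip, c σ = 0) →
      (∀ φ : ZMod l →+ AddCircle (1 : ℚ), (fun σ : F.Il => φ (c σ)) ∈ F.UT) → c ∈ S

/-- The bound for a module of prime order. -/
theorem card_strictPairs_prime [Finite B] (F : Frame Γ) (χ : Γ →* (ZMod l)ˣ) (hF : Pieces F χ)
    (hB : Nat.card B = l) (θ : Γ →* (ZMod l)ˣ) (hθ : θ = 1 ∨ θ = χ)
    (hact : ∀ (σ : Γ) (b : B), σ • b = (θ σ : ZMod l).val • b)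
    (B₀ : AddSubgroup B) (hadm : Admissible F B₀) :
    Finite (strictPairs F B₀) ∧
      Nat.card (strictPairs F B₀) ≤ Nat.card B * Nat.card B₀ := by
  classical
  have hl : l.Prime := Fact.out
  have : Nontrivial B := Finite.one_lt_card_iff_nontrivial.1 (hB ▸ hl.one_lt)
  have : IsAddCyclic B := isAddCyclic_of_prime_card hB
  obtain ⟨e⟩ : Nonempty (ZMod l ≃+ B) :=
    ⟨addEquivOfPrimeCardEq (p := l) (Nat.card_zmod l) hB⟩
  have he : ∀ (σ : Γ) (x : ZMod l), σ • e x = e ((θ σ : ZMod l) * x) := by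
    intro σ x
    rw [hact, ← map_nsmul, nsmul_eq_mul, ZMod.natCast_zmod_val]
  have hIp : ∀ σ ∈ F.Ip, ∀ b : B, σ • b = b := by
    intro σ hσ b
    have : θ σ = 1 := by
      rcases hθ with rfl | rfl
      · rfl
      · exact hF.chi_Ip σ hσ
    rw [hact, this, Units.val_one, ZMod.val_one, one_nsmul]
  -- the transported cocycle
  have key : ∀ x : strictPairs F B₀,
      (∀ σ τ, e.symm (x.1.1 (σ * τ)) = e.symm (x.1.1 σ) + (θ σ : ZMod l) * e.symm (x.1.1 τ)) ∧
      (∃ U ∈ F.levels, ∀ σ ∈ U, e.symm (x.1.1 σ) = 0) ∧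
      (∀ σ ∈ F.others, e.symm (x.1.1 σ) = 0) ∧ (∀ σ ∈ F.Ip, e.symm (x.1.1 σ) = 0) := by
    rintro ⟨⟨c, b⟩, xc, ⟨U, hU, xU⟩, xo, xp, -, -⟩
    refine ⟨fun σ τ => e.injective ?_, ⟨U, hU, fun σ hσ => ?_⟩, fun σ hσ => ?_,
      fun σ hσ => ?_⟩
    · rw [map_add, ← he, e.apply_symm_apply, e.apply_symm_apply, e.apply_symm_apply, xc]
    · exact (congrArg e.symm (xU σ hσ)).trans (map_zero _)
    · exact (congrArg e.symm (xo σ hσ)).trans (map_zero _)
    · refine (congrArg e.symm (xp σ hσ)).trans ?_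
      rw [hIp σ hσ, sub_self, map_zero]
  have : Fact (Nat.card B).Prime := ⟨hB ▸ hl⟩
  rcases B₀.eq_bot_or_eq_top_of_prime_card with rfl | rfl
  · -- inertia at `l` acts trivially, so the action is trivial
    obtain ⟨hI, -⟩ := hadm
    have hθ1 : θ = 1 := by
      rcases hθ with rfl | rfl
      · rfl
      refine hF.chi_Il fun σ hσ => ?_
      have h1 := hI σ hσ (e 1)
      rw [AddSubgroup.mem_bot, sub_eq_zero, he, mul_one] at h1
      exact Units.ext (e.injective h1)
    subst hθ1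
    have hz : ∀ x : strictPairs F (⊥ : AddSubgroup B), x.1.1 = 0 := by
      intro x
      obtain ⟨hc, hU, ho, hp⟩ := key x
      have hil : ∀ σ ∈ F.Il, e.symm (x.1.1 σ) = 0 := fun σ hσ => by
        have := x.2.2.2.2.2.1 σ hσ
        rw [AddSubgroup.mem_bot] at this
        rw [this, map_zero]
      have := hF.trivial_piece _ (by simpa using hc) hU ho hp hil
      funext σ
      exact e.symm.injective (by simpa using congrFun this σ)
    have hinj : Function.Injective fun x : strictPairs F (⊥ : AddSubgroup B) => x.1.2 :=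
      fun x y hxy => Subtype.ext (Prod.ext ((hz x).trans (hz y).symm) hxy)
    refine ⟨Finite.of_injective _ hinj, (Nat.card_le_card_of_injective _ hinj).trans ?_⟩
    exact Nat.le_mul_of_pos_right _ Nat.card_pos
  · obtain ⟨S, hS, hmem⟩ := hF.mult_piece θ hθ
    have hin : ∀ x : strictPairs F (⊤ : AddSubgroup B), (fun σ => e.symm (x.1.1 σ)) ∈ S := by
      intro x
      obtain ⟨hc, hU, ho, hp⟩ := key x
      refine hmem _ hc hU ho hp fun φ => ?_
      have := x.2.2.2.2.2.2 ((φ.comp e.symm.toAddMonoidHom).comp (⊤ : AddSubgroup B).subtype)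
        fun σ => AddSubgroup.mem_top _
      exact this
    let g : strictPairs F (⊤ : AddSubgroup B) → S × B := fun x => (⟨_, hin x⟩, x.1.2)
    have hinj : Function.Injective g := by
      intro x y hxy
      obtain ⟨h1, h2⟩ := Prod.ext_iff.1 hxy
      refine Subtype.ext (Prod.ext (funext fun σ => e.symm.injective ?_) h2)
      exact congrFun (congrArg Subtype.val h1) σ
    refine ⟨Finite.of_injective g hinj, (Nat.card_le_card_of_injective g hinj).trans ?_⟩
    rw [Nat.card_prod, Nat.card_eq_finsetCard, Nat.card_congr AddSubgroup.topEquiv.toEquiv, hB,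
      mul_comm l]
    exact Nat.mul_le_mul (hS.trans le_rfl) le_rfl

/-- **Dévissage**: the strict pairs are at most `#B * #B⁰` in number. -/
theorem card_strictPairs_le (F : Frame Γ) (χ : Γ →* (ZMod l)ˣ) (hF : Pieces F χ)
    (B : Type u) [AddCommGroup B] [DistribMulAction Γ B] [Finite B] (h : IsEisLike χ B)
    (B₀ : AddSubgroup B) (hadm : Admissible F B₀) :
    Finite (strictPairs F B₀) ∧
      Nat.card (strictPairs F B₀) ≤ Nat.card B * Nat.card B₀ := by
  classical
  suffices H : ∀ (N : ℕ) (B : Type u) [AddCommGroup B] [DistribMulAction Γ B] [Finite B],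
      Nat.card B = N → IsEisLike χ B → ∀ B₀ : AddSubgroup B, Admissible F B₀ →
      Finite (strictPairs F B₀) ∧ Nat.card (strictPairs F B₀) ≤ Nat.card B * Nat.card B₀ from
    H _ B rfl h B₀ hadm
  intro N
  induction N using Nat.strong_induction_on with
  | _ N ih =>
    intro B _ _ _ hN h B₀ hadm
    rcases subsingleton_or_nontrivial B with hs | hs
    · have hinj : Function.Injective fun x : strictPairs F B₀ => x.1.2 :=
        fun x y _ => Subtype.ext (Subsingleton.elim _ _)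
      refine ⟨Finite.of_injective _ hinj, (Nat.card_le_card_of_injective _ hinj).trans ?_⟩
      exact Nat.le_mul_of_pos_right _ Nat.card_pos
    obtain ⟨v, hv0, hvl, hv⟩ := exists_line χ h
    have hord : addOrderOf v = l := addOrderOf_eq_prime hvl hv0
    obtain ⟨θ, hθ, hθv⟩ : ∃ θ : Γ →* (ZMod l)ˣ, (θ = 1 ∨ θ = χ) ∧
        ∀ σ : Γ, σ • v = (θ σ : ZMod l).val • v := by
      rcases hv with hv | hv
      · exact ⟨1, Or.inl rfl, fun σ => by simp [hv σ, ZMod.val_one]⟩
      · exact ⟨χ, Or.inr rfl, hv⟩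
    let A := AddSubgroup.zmultiples v
    have hact : ∀ (σ : Γ) (a : B), a ∈ A → σ • a = (θ σ : ZMod l).val • a := by
      intro σ a ha
      obtain ⟨k, rfl⟩ := AddSubgroup.mem_zmultiples_iff.1 ha
      rw [smul_comm, hθv, smul_comm]
    have hstab : ∀ (σ : Γ) (a : B), a ∈ A → σ • a ∈ A := fun σ a ha => by
      rw [hact σ a ha]; exact nsmul_mem ha _
    let _instA : DistribMulAction Γ A :=
      { smul := fun σ a => ⟨σ • a.1, hstab σ a.1 a.2⟩
        one_smul := fun a => Subtype.ext (one_smul Γ a.1)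
        mul_smul := fun σ τ a => Subtype.ext (mul_smul σ τ a.1)
        smul_zero := fun σ => Subtype.ext (smul_zero σ)
        smul_add := fun σ a b => Subtype.ext (smul_add σ a.1 b.1) }
    let _instQ : DistribMulAction Γ (B ⧸ A) :=
      { smul := fun σ => QuotientAddGroup.map A A (DistribSMul.toAddMonoidHom B σ)
          fun a ha => hstab σ a ha
        one_smul := fun x => by
          induction x using QuotientAddGroup.induction_on with
          | _ b => exact congrArg _ (one_smul Γ b)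
        mul_smul := fun σ τ x => by
          induction x using QuotientAddGroup.induction_on with
          | _ b => exact congrArg _ (mul_smul σ τ b)
        smul_zero := fun σ => map_zero _
        smul_add := fun σ => map_add _ }
    let i : A →+ B := A.subtype
    let π : B →+ B ⧸ A := QuotientAddGroup.mk' A
    have hie : ∀ (σ : Γ) (a : A), i (σ • a) = σ • i a := fun σ a => rfl
    have hπe : ∀ (σ : Γ) (b : B), π (σ • b) = σ • π b := fun σ b => rfl
    have hex : ∀ b, π b = 0 ↔ b ∈ i.range := fun b => by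
      rw [AddSubgroup.range_subtype]; exact QuotientAddGroup.eq_zero_iff b
    have hπs : Function.Surjective π := QuotientAddGroup.mk'_surjective A
    have hcardA : Nat.card A = l := by rw [Nat.card_zmultiples, hord]
    have hsub := card_strictPairs_prime F χ hF (B := A) hcardA θ hθ
      (fun σ a => Subtype.ext ((hact σ a.1 a.2).trans (by simp))) (B₀.comap i)
      (admissible_comap F i Subtype.val_injective hie B₀ hadm)
    have hcard := card_mul_card i π Subtype.val_injective hπs hex B₀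
    have hlt : Nat.card (B ⧸ A) < N := by
      rw [← hN, ← hcard.1, hcardA]
      exact lt_mul_of_one_lt_left Nat.card_pos (Fact.out : l.Prime).one_lt
    have hquo := ih _ hlt (B ⧸ A) rfl (h.of_surjective π hπs hπe) (B₀.map π)
      (admissible_map F π hπs hπe B₀ hadm)
    have := hsub.1
    have := hquo.1
    obtain ⟨hfin, hle⟩ := card_strictPairs_le_mul F i π Subtype.val_injective hex hie hπe B₀
    refine ⟨hfin, hle.trans ((Nat.mul_le_mul hsub.2 hquo.2).trans ?_)⟩
    rw [← hcard.1, ← hcard.2]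
    exact le_of_eq (by ring)

end FermatAgent.Mazur.Descent
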