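import Mathlib.Algebra.Module.CharacterModule
import Mathlib.GroupTheory.QuotientGroup.Basic
import Mathlib.GroupTheory.Index
import Mathlib.RingTheory.IntegralDomain
import Mathlib.Algebra.Field.ZMod

/-!
# Counting strict cocycles in modules whose simple constituents are trivial or cyclotomic

Abstract devissage for the Eisenstein descent: cocycles which vanish on a set of inertia
elements, are coboundaries on a second subgroup (with the trivialising element remembered)
and are constrained, on a third subgroup, through a filtration step `B⁰ ≤ B`.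
-/

set_option autoImplicit false

namespace FermatAgent.Mazur.Descent

universe u

/-- The local data used for the strict cocycle groups. -/
structure Frame (Γ : Type*) [Group Γ] where
  /-- inertia at the bad prime -/
  Ip : Subgroup Γ
  /-- inertia at the residue characteristic -/
  Il : Subgroup Γ
  /-- inertia elements at all other primes -/
  others : Set Γ
  /-- the subgroups allowed as levels of smoothness -/
  levels : Set (Subgroup Γ)
  /-- a level exists -/
  levels_nonempty : levels.Nonempty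
  /-- levels are directed -/
  levels_inf : ∀ U ∈ levels, ∀ V ∈ levels, U ⊓ V ∈ levels
  /-- admissible characters on `Il` -/
  UT : AddSubgroup (Il → AddCircle (1 : ℚ))

variable {Γ : Type*} [Group Γ] (F : Frame Γ)

section defs

variable {B : Type u} [AddCommGroup B] [DistribMulAction Γ B]

/-- Pairs `(c, b)` of a strict cocycle and an element trivialising it on `Ip`. -/
def strictPairs (B₀ : AddSubgroup B) : AddSubgroup ((Γ → B) × B) where
  carrier := {x | (∀ σ τ : Γ, x.1 (σ * τ) = x.1 σ + σ • x.1 τ) ∧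
    (∃ U ∈ F.levels, ∀ σ ∈ U, x.1 σ = 0) ∧
    (∀ σ ∈ F.others, x.1 σ = 0) ∧
    (∀ σ ∈ F.Ip, x.1 σ = σ • x.2 - x.2) ∧
    (∀ σ ∈ F.Il, x.1 σ ∈ B₀) ∧
    (∀ φ : B₀ →+ AddCircle (1 : ℚ), ∀ h : ∀ σ : F.Il, x.1 σ ∈ B₀,
      (fun σ : F.Il => φ ⟨x.1 σ, h σ⟩) ∈ F.UT)}
  zero_mem' := by
    refine ⟨by simp, ?_, by simp, by simp, fun σ _ => B₀.zero_mem, fun φ h => ?_⟩
    · obtain ⟨U, hU⟩ := F.levels_nonempty
      exact ⟨U, hU, by simp⟩
    · convert F.UT.zero_mem using 1
      funext σ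
      exact map_zero φ
  add_mem' := by
    rintro x y ⟨xc, ⟨U, hU, xU⟩, xo, xp, xl, xu⟩ ⟨yc, ⟨V, hV, yV⟩, yo, yp, yl, yu⟩
    refine ⟨fun σ τ => ?_, ⟨U ⊓ V, F.levels_inf U hU V hV, fun σ hσ => ?_⟩, fun σ hσ => ?_,
      fun σ hσ => ?_, fun σ hσ => ?_, fun φ h => ?_⟩
    · simp only [Prod.fst_add, Pi.add_apply, xc, yc, smul_add]; abel
    · simp [xU σ hσ.1, yV σ hσ.2]
    · simp [xo σ hσ, yo σ hσ]
    · simp only [Prod.fst_add, Prod.snd_add, Pi.add_apply, xp σ hσ, yp σ hσ, smul_add]; abel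
    · exact B₀.add_mem (xl σ hσ) (yl σ hσ)
    · convert F.UT.add_mem (xu φ fun σ => xl σ σ.2) (yu φ fun σ => yl σ σ.2) using 1
      funext σ
      simp only [Pi.add_apply, ← map_add]
      rfl
  neg_mem' := by
    rintro x ⟨xc, ⟨U, hU, xU⟩, xo, xp, xl, xu⟩
    refine ⟨fun σ τ => ?_, ⟨U, hU, fun σ hσ => ?_⟩, fun σ hσ => ?_, fun σ hσ => ?_,
      fun σ hσ => ?_, fun φ h => ?_⟩
    · simp only [Prod.fst_neg, Pi.neg_apply, xc, smul_neg]; abel
    · simp [xU σ hσ]
    · simp [xo σ hσ]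
    · simp only [Prod.fst_neg, Prod.snd_neg, Pi.neg_apply, xp σ hσ, smul_neg]; abel
    · exact B₀.neg_mem (xl σ hσ)
    · convert F.UT.neg_mem (xu φ fun σ => xl σ σ.2) using 1
      funext σ
      simp only [Pi.neg_apply, ← map_neg]
      rfl

theorem mem_strictPairs {B₀ : AddSubgroup B} {c : Γ → B} {b : B} :
    (c, b) ∈ strictPairs F B₀ ↔ (∀ σ τ : Γ, c (σ * τ) = c σ + σ • c τ) ∧
    (∃ U ∈ F.levels, ∀ σ ∈ U, c σ = 0) ∧
    (∀ σ ∈ F.others, c σ = 0) ∧
    (∀ σ ∈ F.Ip, c σ = σ • b - b) ∧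
    (∀ σ ∈ F.Il, c σ ∈ B₀) ∧
    (∀ φ : B₀ →+ AddCircle (1 : ℚ), ∀ h : ∀ σ : F.Il, c σ ∈ B₀,
      (fun σ : F.Il => φ ⟨c σ, h σ⟩) ∈ F.UT) :=
  Iff.rfl

/-- The hypothesis on a module: inertia at `l` is trivial on `B/B⁰`, and its coboundaries
are admissible. -/
def Admissible (B₀ : AddSubgroup B) : Prop :=
  ∃ h : ∀ σ ∈ F.Il, ∀ b : B, σ • b - b ∈ B₀,
    ∀ (b : B) (φ : B₀ →+ AddCircle (1 : ℚ)),
      (fun σ : F.Il => φ ⟨(σ : Γ) • b - b, h σ σ.2 b⟩) ∈ F.UT

end defs

/-- Extension of characters. -/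
theorem exists_extend {A A' : Type*} [AddCommGroup A] [AddCommGroup A'] (f : A →+ A')
    (hf : Function.Injective f) (φ : A →+ AddCircle (1 : ℚ)) :
    ∃ ψ : A' →+ AddCircle (1 : ℚ), ∀ a, ψ (f a) = φ a := by
  obtain ⟨ψ, hψ⟩ := CharacterModule.dual_surjective_of_injective f.toIntLinearMap hf φ
  exact ⟨ψ, fun a => DFunLike.congr_fun hψ a⟩

section exact

variable {A B C : Type u} [AddCommGroup A] [AddCommGroup B] [AddCommGroup C]
  [DistribMulAction Γ A] [DistribMulAction Γ B] [DistribMulAction Γ C]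
  (i : A →+ B) (π : B →+ C) (hi : Function.Injective i) (hπ : Function.Surjective π)
  (hex : ∀ b, π b = 0 ↔ b ∈ i.range)
  (hie : ∀ (σ : Γ) (a : A), i (σ • a) = σ • i a)
  (hπe : ∀ (σ : Γ) (b : B), π (σ • b) = σ • π b)
  (B₀ : AddSubgroup B)

include hi hie in
omit [AddCommGroup C] [DistribMulAction Γ C] in
theorem admissible_comap (h : Admissible F B₀) : Admissible F (B₀.comap i) := by
  obtain ⟨hI, hU⟩ := h
  have hI' : ∀ σ ∈ F.Il, ∀ a : A, σ • a - a ∈ B₀.comap i := fun σ hσ a => by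
    simpa [hie] using hI σ hσ (i a)
  refine ⟨hI', fun a φ => ?_⟩
  let j : B₀.comap i →+ B₀ := (i.comp (B₀.comap i).subtype).codRestrict B₀ fun x => x.2
  have hj : Function.Injective j := fun x y hxy => Subtype.ext (hi (congrArg Subtype.val hxy))
  obtain ⟨ψ, hψ⟩ := exists_extend j hj φ
  convert hU (i a) ψ using 1
  funext σ
  rw [← hψ]
  congr 1
  exact Subtype.ext (show i ((σ : Γ) • a - a) = _ by simp [hie])

include hπ hπe in
omit [AddCommGroup A] [DistribMulAction Γ A] in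
theorem admissible_map (h : Admissible F B₀) : Admissible F (B₀.map π) := by
  obtain ⟨hI, hU⟩ := h
  have hI' : ∀ σ ∈ F.Il, ∀ c : C, σ • c - c ∈ B₀.map π := fun σ hσ c => by
    obtain ⟨b, rfl⟩ := hπ c
    exact ⟨σ • b - b, hI σ hσ b, by simp [hπe]⟩
  refine ⟨hI', fun c φ => ?_⟩
  obtain ⟨b, rfl⟩ := hπ c
  convert hU b (φ.comp (π.addSubgroupMap B₀)) using 1
  funext σ
  simp only [AddMonoidHom.coe_comp, Function.comp_apply]
  congr 1
  exact Subtype.ext (by simp [hπe])

include hi hex hie hπe in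
/-- The counting inequality along a short exact sequence. -/
theorem card_strictPairs_le_mul [Finite (strictPairs F (B₀.comap i))]
    [Finite (strictPairs F (B₀.map π))] :
    Finite (strictPairs F B₀) ∧ Nat.card (strictPairs F B₀) ≤
      Nat.card (strictPairs F (B₀.comap i)) * Nat.card (strictPairs F (B₀.map π)) := by
  have hmem : ∀ x ∈ strictPairs F B₀,
      ((π ∘ x.1, π x.2) : (Γ → C) × C) ∈ strictPairs F (B₀.map π) := by
    rintro x ⟨xc, ⟨U, hU, xU⟩, xo, xp, xl, xu⟩
    refine ⟨fun σ τ => by simp [xc, hπe], ⟨U, hU, fun σ hσ => by simp [xU σ hσ]⟩,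
      fun σ hσ => by simp [xo σ hσ], fun σ hσ => by simp [xp σ hσ, hπe],
      fun σ hσ => ⟨x.1 σ, xl σ hσ, rfl⟩, fun φ h => ?_⟩
    convert xu (φ.comp (π.addSubgroupMap B₀)) (fun σ => xl σ σ.2) using 1
    funext σ
    rfl
  let f : strictPairs F B₀ →+ strictPairs F (B₀.map π) :=
    { toFun := fun x => ⟨(π ∘ x.1.1, π x.1.2), hmem x.1 x.2⟩
      map_zero' := by ext <;> simp
      map_add' := fun x y => by ext <;> simp }
  have hker : ∀ x : f.ker, ∃ y : strictPairs F (B₀.comap i),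
      i ∘ y.1.1 = x.1.1.1 ∧ i y.1.2 = x.1.1.2 := by
    rintro ⟨⟨⟨c, b⟩, hx⟩, hker⟩
    have h0 : π ∘ c = 0 ∧ π b = 0 :=
      ⟨congrArg (fun z : strictPairs F (B₀.map π) => z.1.1) hker,
        congrArg (fun z : strictPairs F (B₀.map π) => z.1.2) hker⟩
    choose a ha using fun σ => (hex (c σ)).1 (congrFun h0.1 σ)
    obtain ⟨a₀, ha₀⟩ := (hex b).1 h0.2
    obtain ⟨xc, ⟨U, hU, xU⟩, xo, xp, xl, xu⟩ := (mem_strictPairs F).1 hx
    refine ⟨⟨(a, a₀), fun σ τ => hi ?_, ⟨U, hU, fun σ hσ => hi ?_⟩, fun σ hσ => hi ?_,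
      fun σ hσ => hi ?_, fun σ hσ => ?_, fun φ h => ?_⟩, funext ha, ha₀⟩
    · simp [ha, hie, xc]
    · simp [ha, xU σ hσ]
    · simp [ha, xo σ hσ]
    · simp [ha, ha₀, hie, xp σ hσ]
    · simpa [ha] using xl σ hσ
    · let j : B₀.comap i →+ B₀ := (i.comp (B₀.comap i).subtype).codRestrict B₀ fun x => x.2
      have hj : Function.Injective j := fun x y hxy =>
        Subtype.ext (hi (congrArg Subtype.val hxy))
      obtain ⟨ψ, hψ⟩ := exists_extend j hj φ
      convert xu ψ (fun σ => xl σ σ.2) using 1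
      funext σ
      rw [← hψ]
      congr 1
      exact Subtype.ext (show i (a σ) = c σ from ha _)
  choose g hg using hker
  have hg' : Function.Injective g := fun x y hxy => by
    refine Subtype.ext (Subtype.ext (Prod.ext ?_ ?_))
    · rw [← (hg x).1, ← (hg y).1, hxy]
    · rw [← (hg x).2, ← (hg y).2, hxy]
  have : Finite f.ker := Finite.of_injective g hg'
  have : Finite (strictPairs F B₀ ⧸ f.ker) :=
    Finite.of_injective _ (QuotientAddGroup.kerLift_injective f)
  have hfin : Finite (strictPairs F B₀) := AddSubgroup.finite_iff_finite_and_finiteIndex f.ker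
    |>.2 ⟨inferInstance, AddSubgroup.finiteIndex_of_finite_quotient⟩
  refine ⟨hfin, ?_⟩
  rw [AddSubgroup.card_eq_card_quotient_mul_card_addSubgroup f.ker, mul_comm]
  exact Nat.mul_le_mul (Nat.card_le_card_of_injective g hg')
    (Nat.card_le_card_of_injective _ (QuotientAddGroup.kerLift_injective f))

include hi hπ hex in
omit [DistribMulAction Γ A] [DistribMulAction Γ B] [DistribMulAction Γ C] in
theorem card_mul_card [Finite B] :
    Nat.card A * Nat.card C = Nat.card B ∧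
      Nat.card (B₀.comap i) * Nat.card (B₀.map π) = Nat.card B₀ := by
  have key : ∀ (S : AddSubgroup B), Nat.card (S.comap i) * Nat.card (S.map π) = Nat.card S := by
    intro S
    let g := π.comp S.subtype
    have hr : g.range = S.map π := by
      rw [AddMonoidHom.range_comp, AddSubgroup.range_subtype]
    have e : S.comap i ≃ g.ker :=
      Equiv.ofBijective
        (fun a => ⟨⟨i a, a.2⟩, (hex _).2 ⟨a, rfl⟩⟩)
        ⟨fun a a' h => Subtype.ext (hi (congrArg (fun z : g.ker => (z.1 : B)) h)),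
          fun z => by
            obtain ⟨a, ha⟩ := (hex (z.1 : B)).1 z.2
            exact ⟨⟨a, show i a ∈ S from ha ▸ z.1.2⟩, Subtype.ext (Subtype.ext ha)⟩⟩
    rw [AddSubgroup.card_eq_card_quotient_mul_card_addSubgroup g.ker, ← Nat.card_congr e,
      Nat.card_congr (QuotientAddGroup.quotientKerEquivRange g).toEquiv, hr, mul_comm]
  refine ⟨?_, key B₀⟩
  have := key ⊤
  rwa [AddSubgroup.comap_top, AddSubgroup.map_top_of_surjective π hπ,
    Nat.card_congr AddSubgroup.topEquiv.toEquiv, Nat.card_congr AddSubgroup.topEquiv.toEquiv,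
    Nat.card_congr AddSubgroup.topEquiv.toEquiv] at this

end exact

end FermatAgent.Mazur.Descent
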