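import Fermat.Agent.Mazur.Descent.Structure.Build
import Fermat.Agent.Mazur.Descent.Admissible.Main

/-!
# The Eisenstein descent
-/

set_option autoImplicit false

noncomputable section

namespace FermatAgent.Mazur.Descent

open ModularCurve AlgebraicCurve

local notation "GQ" => AlgebraicClosure ℚ ≃ₐ[ℚ] AlgebraicClosure ℚ

/-- For a prime `l` dividing the Eisenstein numerator there is `τ ≡ 1` modulo the Eisenstein prime
of residue characteristic `l` which sends every rational point of `J₀(p)` to a torsion point. -/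
theorem exists_hecke_smul_torsion {p : ℕ} [NeZero p] (hp : p.Prime) (hp11 : 11 ≤ p) {l : ℕ}
    (hl : l.Prime) (hln : l ∣ eisensteinNumerator p) :
    letI := heckeModuleBar p
    ∃ τ : HeckeAlg, τ - 1 ∈ eisensteinIdeal p ⊔ Ideal.span {(l : HeckeAlg)} ∧
      ∀ x : JZero p, (∀ σ : GQ, σ • x = x) → ∃ n : ℕ, n ≠ 0 ∧ n • (τ • x) = 0 := by
  have _ := hp11
  have := Fact.mk hp
  have := Fact.mk hl
  have hlp := not_dvd_level hp hl hln
  obtain ⟨A, hA⟩ := RT.exists_liesOverPrime hl
  obtain ⟨Ap, hAp⟩ := RT.exists_liesOverPrime hp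
  obtain ⟨D⟩ := exists_localData hln hA hAp
  exact exists_hecke_smul_torsion_of_kummerBound D.eval_e D.e_succ
    (kummerBound_of_admissible (fun (h : l = p) => hlp (h ▸ dvd_rfl)) hA hAp D (localAdmissible hlp hA D))

end FermatAgent.Mazur.Descent

end
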